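import Mathlib
import Fermat.Agent.MU.Lib.RR.Hurwitz.Fibres
import Fermat.Agent.Lib.BadRed.ValApprox
import Fermat.Agent.MU.Lib.GoodRed.Small.GenusZero

section MergeWrap_S36_Cover_InvNorm -- from S36/Cover/InvNorm.lean

set_option autoImplicit false
set_option linter.unusedSectionVars false
set_option linter.style.haveILetI false

/-!
# Cluster G (S36), seat G-INV, part 1: the norm of a finite group of automorphisms

`G` a finite subgroup of `Aut_K(F)`, `F / K` a function field (`IsRRField`).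
* `ikNorm G x = ∏_{σ ∈ G} σ x`, fixed by `G`, with `ord_w (ikNorm G x) = ∑_σ ord_{σ⁻¹ w} x`;
* `ik_exists_sep`: weak approximation, a function with a zero at `w'` and which is a unit at the
  finitely many places of `T` (`w' ∉ T`).
-/

noncomputable section

open AlgebraicCurve IntermediateField

namespace Fermat.Agent.S36Cover

open Fermat.Agent.RR

variable {K F : Type*} [Field K] [Field F] [Algebra K F]

/-- `ord` of a finite product of nonzero functions. -/
theorem ik_ord_prod (w : Place K F) {ι : Type*} (s : Finset ι) (f : ι → F)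
    (hf : ∀ i ∈ s, f i ≠ 0) : w.ord (∏ i ∈ s, f i) = ∑ i ∈ s, w.ord (f i) := by
  classical
  induction s using Finset.induction_on with
  | empty => simp
  | insert a s ha ih =>
    rw [Finset.prod_insert ha, Finset.sum_insert ha,
      w.ord_mul (hf a (Finset.mem_insert_self a s))
        (Finset.prod_ne_zero_iff.mpr fun i hi => hf i (Finset.mem_insert_of_mem hi)),
      ih fun i hi => hf i (Finset.mem_insert_of_mem hi)]

/-- `ord_w (σ x) = ord_{σ⁻¹ w} x`. -/
theorem ik_ord_apply (σ : F ≃ₐ[K] F) (w : Place K F) (x : F) :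
    w.ord (σ x) = (σ⁻¹ • w).ord x := by
  have h := Place.ord_smul σ (σ⁻¹ • w) x
  rwa [smul_inv_smul] at h

variable (G : Subgroup (F ≃ₐ[K] F)) [Fintype G]

/-- the norm `∏_{σ ∈ G} σ x`. -/
def ikNorm (x : F) : F := ∏ σ : G, (σ : F ≃ₐ[K] F) x

theorem ikNorm_ne_zero {x : F} (hx : x ≠ 0) : ikNorm G x ≠ 0 := by
  unfold ikNorm
  exact Finset.prod_ne_zero_iff.mpr fun σ _ => by simpa using hx

theorem ikNorm_fixed (τ : G) (x : F) : (τ : F ≃ₐ[K] F) (ikNorm G x) = ikNorm G x := by
  unfold ikNorm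
  rw [map_prod]
  exact Fintype.prod_equiv (Equiv.mulLeft τ) _ _ fun σ => rfl

theorem ik_ord_ikNorm (w : Place K F) {x : F} (hx : x ≠ 0) :
    w.ord (ikNorm G x) = ∑ σ : G, ((σ : F ≃ₐ[K] F)⁻¹ • w).ord x := by
  unfold ikNorm
  rw [ik_ord_prod w Finset.univ _ fun σ _ => by simpa using hx]
  exact Finset.sum_congr rfl fun σ _ => ik_ord_apply _ w x

/-! ### weak approximation -/

/-- distinct places have incomparable valuation rings. -/
theorem ik_not_le_of_ne {v w : Place K F} (h : v ≠ w) :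
    ¬ v.toValuationSubring ≤ w.toValuationSubring := fun hle =>
  h (Place.ext (ValuationSubring.eq_of_le_of_ne_top _ hle w.ne_top'))

theorem ik_mem_nonunits_iff (w : Place K F) {x : F} (hx : x ≠ 0) :
    x ∈ w.toValuationSubring.nonunits ↔ 0 < w.ord x := by
  rw [ValuationSubring.mem_nonunits_iff]
  constructor
  · intro h
    have hmem : x ∈ w.toValuationSubring :=
      (w.toValuationSubring.valuation_le_one_iff x).mp (le_of_lt h)
    have h0 : (⟨x, hmem⟩ : w.toValuationSubring) ≠ 0 := fun h0 => hx (congrArg Subtype.val h0)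
    refine (Fermat.Agent.S24Res.mem_maximalIdeal_iff_ord_pos w h0).mp ?_
    rw [IsLocalRing.mem_maximalIdeal, mem_nonunits_iff]
    intro hu
    have h1 : w.toValuationSubring.valuation x = 1 :=
      (w.toValuationSubring.valuation_eq_one_iff ⟨x, hmem⟩).mp hu
    rw [h1] at h
    exact lt_irrefl _ h
  · intro h
    have hmem : x ∈ w.toValuationSubring := Fermat.Agent.S24Res.mem_of_ord_nonneg w h.le
    have h0 : (⟨x, hmem⟩ : w.toValuationSubring) ≠ 0 := fun h0 => hx (congrArg Subtype.val h0)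
    have h1 := (Fermat.Agent.S24Res.mem_maximalIdeal_iff_ord_pos w h0).mpr h
    rw [IsLocalRing.mem_maximalIdeal, mem_nonunits_iff] at h1
    refine lt_of_le_of_ne ((w.toValuationSubring.valuation_le_one_iff x).mpr hmem) fun h2 => h1 ?_
    exact (w.toValuationSubring.valuation_eq_one_iff ⟨x, hmem⟩).mpr h2

end Fermat.Agent.S36Cover
end
end MergeWrap_S36_Cover_InvNorm

section MergeWrap_S36_Cover_InvSep -- from S36/Cover/InvSep.lean

set_option autoImplicit false
set_option linter.unusedSectionVars false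
set_option linter.style.haveILetI false

/-!
# Cluster G (S36), seat G-INV, part 2: weak approximation and fibres of `t`

* `ik_exists_sep`: a function with a zero at `w'` which is a unit at the finitely many places of
  `T` (`w' ∉ T`);
* `ik_ord_pos_iff_of_mem_adjoin`: for `u ∈ K(s)` and two places `w, w'` in the fibre `s = 0`
  (`0 < ord s`), `0 < ord_w u ↔ 0 < ord_w' u`.
-/

noncomputable section

open AlgebraicCurve IntermediateField Polynomial

namespace Fermat.Agent.S36Cover

open Fermat.Agent.RR Fermat.Agent.GoodRedSmall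

variable {K F : Type*} [Field K] [Field F] [Algebra K F]

/-- **weak approximation**: a function with a zero at `w'`, unit at the places of `T`. -/
theorem ik_exists_sep [Infinite K] (T : Finset (Place K F)) (w' : Place K F) (hw' : w' ∉ T) :
    ∃ x : F, x ≠ 0 ∧ 0 < w'.ord x ∧ ∀ w ∈ T, w.ord x = 0 := by
  classical
  rcases T.eq_empty_or_nonempty with hT | ⟨w₀, hw₀⟩
  · obtain ⟨t, ht⟩ := exists_uniformizer w'
    refine ⟨t, ?_, by omega, fun w hw => by simp [hT] at hw⟩
    rintro rfl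
    simp at ht
  let ι := {v : Place K F // v ∈ insert w' T}
  let O : ι → ValuationSubring F := fun i => i.1.toValuationSubring
  let a : ℕ ↪ K := Infinite.natEmbedding K
  let c : ℕ → F := fun m => algebraMap K F (a m)
  have hinc : ∀ i j : ι, i ≠ j → ¬ O i ≤ O j := fun i j hij =>
    ik_not_le_of_ne fun h => hij (Subtype.ext h)
  have hc : ∀ (i : ι) (m : ℕ), c m ∈ O i := fun i m => i.1.algebraMap_mem' (a m)
  have hcu : ∀ (i : ι) (m m' : ℕ), m ≠ m' → c m - c m' ∉ (O i).nonunits := by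
    intro i m m' hmm hmem
    have hne : a m - a m' ≠ 0 := sub_ne_zero.mpr fun h => hmm (a.injective h)
    have hne' : c m - c m' ≠ 0 := by
      show algebraMap K F (a m) - algebraMap K F (a m') ≠ 0
      rw [← map_sub]
      exact (map_ne_zero_iff _ (algebraMap K F).injective).mpr hne
    have h1 := (ik_mem_nonunits_iff i.1 hne').mp hmem
    have h2 : i.1.ord (c m - c m') = 0 := by
      show i.1.ord (algebraMap K F (a m) - algebraMap K F (a m')) = 0
      rw [← map_sub]
      exact ord_const i.1 _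
    omega
  let i₀ : ι := ⟨w', Finset.mem_insert_self w' T⟩
  obtain ⟨E, hE1, hE2, hE3⟩ := Fermat.Agent.BadRed.exists_idempotent_like O c hinc hc hcu i₀
  have hEw : ∀ w ∈ T, E ∈ w.toValuationSubring.nonunits := by
    intro w hw
    refine hE3 ⟨w, Finset.mem_insert_of_mem hw⟩ ?_
    intro h
    have hww : w = w' := congrArg Subtype.val h
    exact hw' (hww ▸ hw)
  have hE1' : E ≠ 1 := by
    rintro rfl
    have := hEw w₀ hw₀
    rw [ValuationSubring.mem_nonunits_iff, map_one] at this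
    exact lt_irrefl _ this
  have hx0 : (1 : F) - E ≠ 0 := sub_ne_zero.mpr (Ne.symm hE1')
  refine ⟨1 - E, hx0, ?_, fun w hw => ?_⟩
  · have h1 : 0 < w'.ord (E - 1) := (ik_mem_nonunits_iff w' (sub_ne_zero.mpr hE1')).mp hE2
    rw [show (1 : F) - E = -(E - 1) by ring, ord_neg']
    exact h1
  · rcases eq_or_ne E 0 with rfl | hE0
    · simp
    have h1 : 0 < w.ord E := (ik_mem_nonunits_iff w hE0).mp (hEw w hw)
    refine ord_eq_zero_of_sub_pos w (c := 1) one_ne_zero ?_
    rw [map_one, show (1 : F) - E - 1 = -E by ring, ord_neg']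
    exact h1

/-! ### the fibre `s = 0` and the elements of `K(s)` -/

/-- polynomials in an integral element are integral. -/
theorem ik_aeval_mem (w : Place K F) {s : F} (hs : s ∈ w.toValuationSubring) (p : K[X]) :
    aeval s p ∈ w.toValuationSubring := by
  induction p using Polynomial.induction_on' with
  | add p q hp hq =>
    rw [map_add]
    exact add_mem hp hq
  | monomial n a =>
    rw [aeval_monomial]
    exact mul_mem (w.algebraMap_mem' a) (pow_mem hs n)

/-- a polynomial in `s` with nonzero constant coefficient does not vanish at `s`, if `s` has a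
zero somewhere. -/
theorem ik_aeval_ne_zero (w : Place K F) {s : F} (hs : 0 < w.ord s) (p : K[X])
    (hp : p.coeff 0 ≠ 0) : aeval s p ≠ 0 := by
  have hs0 : s ≠ 0 := by
    rintro rfl
    simp at hs
  obtain ⟨q, hq⟩ : ∃ q : K[X], p = C (p.coeff 0) + X * q := by
    refine ⟨p.divX, ?_⟩
    conv_lhs => rw [← Polynomial.divX_mul_X_add p]
    ring
  have h1 : aeval s p = algebraMap K F (p.coeff 0) + s * aeval s q := by
    conv_lhs => rw [hq]
    simp
  intro h0
  rw [h1] at h0
  have hc : algebraMap K F (p.coeff 0) = -(s * aeval s q) := eq_neg_of_add_eq_zero_left h0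
  have hc0 : algebraMap K F (p.coeff 0) ≠ 0 :=
    (map_ne_zero_iff _ (algebraMap K F).injective).mpr hp
  have hq0 : aeval s q ≠ 0 := by
    intro hq0
    rw [hq0, mul_zero, neg_zero] at hc
    exact hc0 hc
  have h2 : w.ord (algebraMap K F (p.coeff 0)) = 0 := ord_const w _
  rw [hc, ord_neg', w.ord_mul hs0 hq0] at h2
  have h3 : 0 ≤ w.ord (aeval s q) :=
    Fermat.Agent.S24Res.ord_nonneg_of_mem w
      (ik_aeval_mem w (Fermat.Agent.S24Res.mem_of_ord_nonneg w hs.le) q)
  omega

/-- a polynomial in `s` with nonzero constant coefficient is a unit at a zero of `s`. -/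
theorem ik_ord_aeval_eq_zero (w : Place K F) {s : F} (hs : 0 < w.ord s) (p : K[X])
    (hp : p.coeff 0 ≠ 0) : w.ord (aeval s p) = 0 := by
  have hs0 : s ≠ 0 := by
    rintro rfl
    simp at hs
  obtain ⟨q, hq⟩ : ∃ q : K[X], p = C (p.coeff 0) + X * q := by
    refine ⟨p.divX, ?_⟩
    conv_lhs => rw [← Polynomial.divX_mul_X_add p]
    ring
  have h1 : aeval s p = algebraMap K F (p.coeff 0) + s * aeval s q := by
    conv_lhs => rw [hq]
    simp
  rcases eq_or_ne (aeval s q) 0 with h0 | h0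
  · rw [h1, h0, mul_zero, add_zero]
    exact ord_const w _
  · refine ord_eq_zero_of_sub_pos w (c := p.coeff 0) hp ?_
    rw [h1, add_sub_cancel_left, w.ord_mul hs0 h0]
    have h2 : 0 ≤ w.ord (aeval s q) :=
      Fermat.Agent.S24Res.ord_nonneg_of_mem w
        (ik_aeval_mem w (Fermat.Agent.S24Res.mem_of_ord_nonneg w hs.le) q)
    omega

/-- the order of `aeval s p` at a zero of `s` is `m * ord s`, `m` the multiplicity of `0`. -/
theorem ik_ord_aeval (w : Place K F) {s : F} (hs : 0 < w.ord s) {p : K[X]} (hp : p ≠ 0) :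
    aeval s p ≠ 0 ∧ w.ord (aeval s p) = (p.rootMultiplicity 0 : ℤ) * w.ord s := by
  have hs0 : s ≠ 0 := by
    rintro rfl
    simp at hs
  obtain ⟨q, hq1, hq2⟩ := Polynomial.exists_eq_pow_rootMultiplicity_mul_and_not_dvd p hp 0
  have hq0 : q.coeff 0 ≠ 0 := by
    intro h0
    apply hq2
    rw [C_0, sub_zero]
    exact Polynomial.X_dvd_iff.mpr h0
  have h1 : aeval s p = s ^ (p.rootMultiplicity 0) * aeval s q := by
    conv_lhs => rw [hq1]
    simp
  have h2 := ik_ord_aeval_eq_zero w hs q hq0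
  have h3 : aeval s q ≠ 0 := ik_aeval_ne_zero w hs q hq0
  refine ⟨?_, ?_⟩
  · rw [h1]
    exact mul_ne_zero (pow_ne_zero _ hs0) h3
  · rw [h1, w.ord_mul (pow_ne_zero _ hs0) h3, h2, add_zero, ord_pow']

/-- **the sign of the order of an element of `K(s)` is constant on the fibre `s = 0`.** -/
theorem ik_ord_eq_mul_of_mem_adjoin {s : F} {u : F} (hu : u ∈ K⟮s⟯) (hu0 : u ≠ 0) :
    ∃ m : ℤ, ∀ w : Place K F, 0 < w.ord s → w.ord u = m * w.ord s := by
  obtain ⟨r, t, rfl⟩ := (IntermediateField.mem_adjoin_simple_iff K u).mp hu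
  have hr : aeval s r ≠ 0 := fun h => hu0 (by rw [h, zero_div])
  have ht : aeval s t ≠ 0 := fun h => hu0 (by rw [h, div_zero])
  have hr0 : r ≠ 0 := fun h => hr (by rw [h, map_zero])
  have ht0 : t ≠ 0 := fun h => ht (by rw [h, map_zero])
  refine ⟨(r.rootMultiplicity 0 : ℤ) - (t.rootMultiplicity 0 : ℤ), fun w hw => ?_⟩
  rw [div_eq_mul_inv, w.ord_mul hr (inv_ne_zero ht), w.ord_inv, (ik_ord_aeval w hw hr0).2,
    (ik_ord_aeval w hw ht0).2]
  ring

end Fermat.Agent.S36Cover
end
end MergeWrap_S36_Cover_InvSep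

section MergeWrap_S36_Cover_InvOrbit -- from S36/Cover/InvOrbit.lean

set_option autoImplicit false
set_option linter.unusedSectionVars false
set_option linter.style.haveILetI false

/-!
# Cluster G (S36), seat G-INV, part 3: the fibres of the quotient map are orbits

`G` a finite subgroup of `Aut_K(F)` with fixed field `K(x)`.  On the pole fibre of `x`:
* `ik_transitive`: `G` is transitive;
* `ik_card_stabilizer`: the stabiliser of `w` has order `- ord_w x` (the ramification index);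
* `ik_sum_single_eq_poleDiv`: `∑_σ (σ • w) = (x)_∞`.
-/

noncomputable section

open AlgebraicCurve IntermediateField Polynomial

namespace Fermat.Agent.S36Cover

open Fermat.Agent.RR Fermat.Agent.GoodRedSmall Fermat.Agent.RRHur

variable {K F : Type*} [Field K] [Field F] [Algebra K F]

/-- pole version of `ik_ord_eq_mul_of_mem_adjoin`. -/
theorem ik_ord_eq_mul_of_mem_adjoin_pole {x u : F} (hu : u ∈ K⟮x⟯) (hu0 : u ≠ 0) :
    ∃ m : ℤ, ∀ w : Place K F, w.ord x < 0 → w.ord u = m * w.ord x := by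
  have hle : K⟮x⟯ ≤ K⟮x⁻¹⟯ := by
    rw [IntermediateField.adjoin_simple_le_iff]
    have h1 : x⁻¹ ∈ K⟮x⁻¹⟯ := IntermediateField.mem_adjoin_simple_self K _
    simpa using K⟮x⁻¹⟯.inv_mem h1
  obtain ⟨m, hm⟩ := ik_ord_eq_mul_of_mem_adjoin (hle hu) hu0
  refine ⟨-m, fun w hw => ?_⟩
  have h1 := hm w (by rw [w.ord_inv]; omega)
  rw [h1, w.ord_inv]
  ring

variable (G : Subgroup (F ≃ₐ[K] F)) [Fintype G]

theorem ik_ord_smul_of_fixed {x : F} (hGx : ∀ σ ∈ G, σ x = x) (σ : G) (w : Place K F) :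
    ((σ : F ≃ₐ[K] F) • w).ord x = w.ord x := by
  have h := Place.ord_smul (σ : F ≃ₐ[K] F) w x
  rwa [hGx σ σ.2] at h

theorem ik_ikNorm_mem {x : F} (hfix : ∀ y : F, (∀ σ ∈ G, σ y = y) → y ∈ K⟮x⟯) (y : F) :
    ikNorm G y ∈ K⟮x⟯ :=
  hfix _ fun σ hσ => ikNorm_fixed G ⟨σ, hσ⟩ y

/-- **transitivity** of `G` on the pole fibre of `x`. -/
theorem ik_transitive [Infinite K] {x : F}
    (hfix : ∀ y : F, (∀ σ ∈ G, σ y = y) → y ∈ K⟮x⟯) {w w' : Place K F}
    (hw : w.ord x < 0) (hw' : w'.ord x < 0) : ∃ σ : G, (σ : F ≃ₐ[K] F) • w = w' := by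
  classical
  by_contra hcon
  have hcon : ∀ σ : G, (σ : F ≃ₐ[K] F) • w ≠ w' := fun σ h => hcon ⟨σ, h⟩
  set T : Finset (Place K F) :=
    Finset.univ.image (fun σ : G => (σ : F ≃ₐ[K] F) • w) ∪
      (Finset.univ.image (fun σ : G => (σ : F ≃ₐ[K] F) • w')).erase w' with hT
  have hw'T : w' ∉ T := by
    rw [hT, Finset.mem_union, not_or]
    refine ⟨?_, Finset.notMem_erase _ _⟩
    rw [Finset.mem_image]
    rintro ⟨σ, -, h⟩
    exact hcon σ h
  obtain ⟨y, hy0, hy1, hy2⟩ := ik_exists_sep T w' hw'T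
  have hN0 : ikNorm G y ≠ 0 := ikNorm_ne_zero G hy0
  obtain ⟨m, hm⟩ := ik_ord_eq_mul_of_mem_adjoin_pole (ik_ikNorm_mem G hfix y) hN0
  -- the norm is a unit at `w`
  have h1 : w.ord (ikNorm G y) = 0 := by
    rw [ik_ord_ikNorm G w hy0]
    refine Finset.sum_eq_zero fun σ _ => hy2 _ ?_
    rw [hT, Finset.mem_union]
    left
    rw [Finset.mem_image]
    exact ⟨σ⁻¹, Finset.mem_univ _, rfl⟩
  -- and has a zero at `w'`
  have h2 : 0 < w'.ord (ikNorm G y) := by
    rw [ik_ord_ikNorm G w' hy0]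
    have hnn : ∀ σ : G, 0 ≤ ((σ : F ≃ₐ[K] F)⁻¹ • w').ord y := by
      intro σ
      by_cases h : (σ : F ≃ₐ[K] F)⁻¹ • w' = w'
      · rw [h]; exact hy1.le
      · refine (hy2 _ ?_).ge
        rw [hT, Finset.mem_union]
        right
        rw [Finset.mem_erase]
        refine ⟨h, ?_⟩
        rw [Finset.mem_image]
        exact ⟨σ⁻¹, Finset.mem_univ _, rfl⟩
    have h3 : ((((1 : G) : F ≃ₐ[K] F))⁻¹ • w').ord y ≤
        ∑ σ : G, ((σ : F ≃ₐ[K] F)⁻¹ • w').ord y :=
      Finset.single_le_sum (f := fun σ : G => ((σ : F ≃ₐ[K] F)⁻¹ • w').ord y)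
        (fun σ _ => hnn σ) (Finset.mem_univ (1 : G))
    have h4 : ((((1 : G) : F ≃ₐ[K] F))⁻¹ • w').ord y = w'.ord y := by
      rw [Subgroup.coe_one, inv_one, one_smul]
    omega
  have e1 := hm w hw
  have e2 := hm w' hw'
  rw [h1] at e1
  have hm0 : m = 0 := by
    rcases mul_eq_zero.mp e1.symm with h | h
    · exact h
    · omega
  rw [hm0, zero_mul] at e2
  omega

/-- Artin: `[F : K(x)] = |G|`. -/
theorem ik_finrank_eq_card {x : F} (hGx : ∀ σ ∈ G, σ x = x)
    (hfix : ∀ y : F, (∀ σ ∈ G, σ y = y) → y ∈ K⟮x⟯) :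
    Module.finrank K⟮x⟯ F = Fintype.card G := by
  have h1 : K⟮x⟯ = IntermediateField.fixedField G := by
    apply le_antisymm
    · rw [IntermediateField.adjoin_simple_le_iff, IntermediateField.mem_fixedField_iff]
      exact hGx
    · intro y hy
      exact hfix y ((IntermediateField.mem_fixedField_iff G y).mp hy)
  rw [h1]
  exact FixedPoints.finrank_eq_card G F

/-- the number of `σ ∈ G` with `σ • w = τ • w` does not depend on `τ`. -/
theorem ik_card_fibre_eq (w : Place K F) (τ : G) [DecidableEq (Place K F)] :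
    (Finset.univ.filter fun σ : G => (σ : F ≃ₐ[K] F) • w = (τ : F ≃ₐ[K] F) • w).card =
      (Finset.univ.filter fun σ : G => (σ : F ≃ₐ[K] F) • w = w).card := by
  refine Finset.card_bij (fun σ _ => τ⁻¹ * σ) ?_ ?_ ?_
  · intro σ hσ
    rw [Finset.mem_filter] at hσ ⊢
    refine ⟨Finset.mem_univ _, ?_⟩
    rw [Subgroup.coe_mul, mul_smul, hσ.2, Subgroup.coe_inv, inv_smul_smul]
  · intro σ _ σ' _ h
    exact mul_left_cancel h
  · intro σ hσ
    rw [Finset.mem_filter] at hσ
    refine ⟨τ * σ, ?_, by simp⟩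
    rw [Finset.mem_filter]
    refine ⟨Finset.mem_univ _, ?_⟩
    rw [Subgroup.coe_mul, mul_smul, hσ.2]

/-- **the stabiliser of a pole `w` of `x` has `- ord_w x` elements** (`G` finite with fixed field
`K(x)`, `K` algebraically closed). -/
theorem ik_card_stabilizer [IsAlgClosed K] (h : IsRRField K F) {x : F}
    (hGx : ∀ σ ∈ G, σ x = x) (hfix : ∀ y : F, (∀ σ ∈ G, σ y = y) → y ∈ K⟮x⟯)
    {w : Place K F} (hw : w.ord x < 0) [DecidableEq (Place K F)] :
    ((Finset.univ.filter fun σ : G => (σ : F ≃ₐ[K] F) • w = w).card : ℤ) = - w.ord x := by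
  have hx : Transcendental K x :=
    Fermat.Agent.S24Res.transcendental_of_ord_ne_zero w (ne_of_lt hw)
  have hn := ik_finrank_eq_card G hGx hfix
  have hpos : 0 < Module.finrank K⟮x⟯ F := by
    rw [hn]
    exact Fintype.card_pos_iff.mpr ⟨1⟩
  haveI : FiniteDimensional K⟮x⟯ F := Module.finite_of_finrank_pos hpos
  have hdeg := degree_poleDiv_eq_finrank h hx
  rw [degree_eq_sum h, hn] at hdeg
  set S := (poleDiv h x).support with hS
  -- every point of the support is in the orbit of `w`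
  have hmem : ∀ v ∈ S, v.ord x < 0 := by
    intro v hv
    rw [hS, Finsupp.mem_support_iff, poleDiv_apply] at hv
    by_contra hcon
    exact hv (max_eq_right (by omega))
  have horb : ∀ v ∈ S, ∃ τ : G, (τ : F ≃ₐ[K] F) • w = v := fun v hv =>
    ik_transitive G hfix hw (hmem v hv)
  have hval : ∀ v ∈ S, poleDiv h x v = - w.ord x := by
    intro v hv
    obtain ⟨τ, rfl⟩ := horb v hv
    rw [poleDiv_apply, ik_ord_smul_of_fixed G hGx τ w]
    exact max_eq_left (by omega)
  rw [Finset.sum_congr rfl hval, Finset.sum_const, nsmul_eq_mul] at hdeg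
  -- count `G` fibrewise
  have hmaps : ∀ σ ∈ (Finset.univ : Finset G), (σ : F ≃ₐ[K] F) • w ∈ S := by
    intro σ _
    rw [hS, Finsupp.mem_support_iff, poleDiv_apply, ik_ord_smul_of_fixed G hGx σ w]
    rw [max_eq_left (by omega)]
    omega
  have hcount := Finset.card_eq_sum_card_fiberwise (f := fun σ : G => (σ : F ≃ₐ[K] F) • w)
    (s := Finset.univ) (t := S) hmaps
  have hfib : ∀ v ∈ S, (Finset.univ.filter fun σ : G => (σ : F ≃ₐ[K] F) • w = v).card =
      (Finset.univ.filter fun σ : G => (σ : F ≃ₐ[K] F) • w = w).card := by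
    intro v hv
    obtain ⟨τ, rfl⟩ := horb v hv
    exact ik_card_fibre_eq G w τ
  rw [Finset.sum_congr rfl hfib, Finset.sum_const, smul_eq_mul, Finset.card_univ] at hcount
  have hSpos : 0 < S.card := by
    rw [Finset.card_pos]
    exact ⟨(1 : G).1 • w, hmaps 1 (Finset.mem_univ _)⟩
  have hcount' : (Fintype.card G : ℤ) =
      (S.card : ℤ) * ((Finset.univ.filter fun σ : G => (σ : F ≃ₐ[K] F) • w = w).card : ℤ) := by
    exact_mod_cast hcount
  rw [hcount'] at hdeg
  have hS0 : (S.card : ℤ) ≠ 0 := by exact_mod_cast hSpos.ne'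
  exact (mul_left_cancel₀ hS0 hdeg).symm

/-- **`∑_{σ ∈ G} (σ • w) = (x)_∞`** for a pole `w` of `x`. -/
theorem ik_sum_single_eq_poleDiv [IsAlgClosed K] (h : IsRRField K F) {x : F}
    (hGx : ∀ σ ∈ G, σ x = x) (hfix : ∀ y : F, (∀ σ ∈ G, σ y = y) → y ∈ K⟮x⟯)
    {w : Place K F} (hw : w.ord x < 0) :
    ∑ σ : G, (Finsupp.single ((σ : F ≃ₐ[K] F) • w) (1 : ℤ) : Divisor K F) = poleDiv h x := by
  classical
  ext v
  rw [Finsupp.finsetSum_apply, poleDiv_apply]
  simp only [Finsupp.single_apply]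
  rw [Finset.sum_boole]
  by_cases hv : v.ord x < 0
  · obtain ⟨τ, rfl⟩ := ik_transitive G hfix hw hv
    rw [ik_card_fibre_eq G w τ, ik_card_stabilizer G h hGx hfix hw,
      ik_ord_smul_of_fixed G hGx τ w, max_eq_left (by omega)]
  · rw [max_eq_right (by omega)]
    have : (Finset.univ.filter fun σ : G => (σ : F ≃ₐ[K] F) • w = v) = ∅ := by
      rw [Finset.filter_eq_empty_iff]
      intro σ _ hσ
      apply hv
      rw [← hσ, ik_ord_smul_of_fixed G hGx σ w]
      exact hw
    rw [this]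
    simp

end Fermat.Agent.S36Cover
end
end MergeWrap_S36_Cover_InvOrbit
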